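/-
S17 / DESC  (Mathlib only).  Descent lemma with a QUASI-bilinear height pairing.

PROOF.  q c := β c c.
 (0) |β 0 c| ≤ C            [hadd 0 0 c],   |β (-b) c + β b c| ≤ 2C   [hadd b (-b) c + (0)].
 (1) |q (a+b) - q a - q b - 2 β a b| ≤ 3C   [hadd twice + hsymm].
 (2) |q (-b) - q b| ≤ 4C,   |β a (-b) + β a b| ≤ 2C.
 (3) |q (a+b) + q (a-b) - 2 q a - 2 q b| ≤ 14C    (any explicit constant will do).
 (4) |q (b+b) - 4 q b| ≤ 3C.
 (5) q is bounded below: {c | q c ≤ 0} is finite, so ∃ m ≥ 0, ∀ c, -m ≤ q c.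
 (6) reps: finitely many r_i of Γ/2Γ; M := max q (r_i).  x = r + 2y ⇒
       4 q y - 3C ≤ q (2y) = q (x - r) ≤ 2 q x + 2 q r + m + 14C,  so q y ≤ q x / 2 + K.
 (7) H := closure ({c | q c ≤ 2K + 1} ∪ reps) (finite set).  If x ∉ H take x0 ∉ H with q x0 minimal
     among the finite set {c | q c ≤ q x ∧ c ∉ H}; x0 = r + 2y, y ∉ H, q y ≤ q x0/2 + K < q x0.  Contradiction.
-/
import Mathlib

set_option autoImplicit false

namespace Fermat.Agent.S17

section
variable {Γ : Type*} [AddCommGroup Γ] {β : Γ → Γ → ℝ} {C : ℝ}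

theorem desc_zero (hadd : ∀ a b c, |β (a + b) c - β a c - β b c| ≤ C) (c : Γ) : |β 0 c| ≤ C := by
  have h := hadd 0 0 c
  rw [add_zero] at h
  have : β 0 c - β 0 c - β 0 c = -β 0 c := by ring
  rwa [this, abs_neg] at h

theorem desc_neg (hadd : ∀ a b c, |β (a + b) c - β a c - β b c| ≤ C) (b c : Γ) :
    |β (-b) c + β b c| ≤ 2 * C := by
  have h := hadd b (-b) c
  rw [add_neg_cancel] at h
  have h0 := desc_zero hadd c
  rw [abs_le] at *
  constructor <;> linarith [h.1, h.2, h0.1, h0.2]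

theorem desc_add (hsymm : ∀ a b, β a b = β b a)
    (hadd : ∀ a b c, |β (a + b) c - β a c - β b c| ≤ C) (a b : Γ) :
    |β (a + b) (a + b) - β a a - β b b - 2 * β a b| ≤ 3 * C := by
  have h1 := hadd a b (a + b)
  have h2 := hadd a b a
  have h3 := hadd a b b
  rw [hsymm a (a + b), hsymm b (a + b)] at h1
  rw [hsymm b a] at h2
  rw [abs_le] at *
  constructor <;> linarith [h1.1, h1.2, h2.1, h2.2, h3.1, h3.2]

theorem desc_par (hsymm : ∀ a b, β a b = β b a)
    (hadd : ∀ a b c, |β (a + b) c - β a c - β b c| ≤ C) (a b : Γ) :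
    |β (a + b) (a + b) + β (a - b) (a - b) - 2 * β a a - 2 * β b b| ≤ 14 * C := by
  have h1 := desc_add hsymm hadd a b
  have h2 := desc_add hsymm hadd a (-b)
  rw [← sub_eq_add_neg] at h2
  have h3 := desc_neg hadd b a
  have h4 := desc_neg hadd b (-b)
  have h5 := desc_neg hadd b b
  rw [hsymm (-b) a, hsymm b a] at h3
  rw [hsymm b (-b)] at h4
  rw [abs_le] at *
  constructor <;> linarith [h1.1, h1.2, h2.1, h2.2, h3.1, h3.2, h4.1, h4.2, h5.1, h5.2]

theorem desc_two (hsymm : ∀ a b, β a b = β b a)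
    (hadd : ∀ a b c, |β (a + b) c - β a c - β b c| ≤ C) (b : Γ) :
    |β (b + b) (b + b) - 4 * β b b| ≤ 3 * C := by
  have h1 := desc_add hsymm hadd b b
  rw [abs_le] at *
  constructor <;> linarith [h1.1, h1.2]

end

theorem desc_fg {Γ : Type*} [AddCommGroup Γ] (β : Γ → Γ → ℝ) (C : ℝ)
    (hsymm : ∀ a b, β a b = β b a)
    (hadd : ∀ a b c, |β (a + b) c - β a c - β b c| ≤ C)
    (hN : ∀ B : ℝ, {c : Γ | β c c ≤ B}.Finite)
    (h2 : Finite (Γ ⧸ (zsmulAddGroupHom (α := Γ) 2).range)) : AddGroup.FG Γ := by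
  classical
  have hC : 0 ≤ C := le_trans (abs_nonneg _) (hadd 0 0 0)
  -- lower bound
  obtain ⟨m, hm0, hm⟩ : ∃ m : ℝ, 0 ≤ m ∧ ∀ c : Γ, -m ≤ β c c := by
    obtain ⟨m, hm⟩ := ((hN 0).image (fun c => -β c c)).bddAbove
    refine ⟨max m 0, le_max_right _ _, fun c => ?_⟩
    by_cases hc : β c c ≤ 0
    · have : -β c c ≤ m := hm ⟨c, hc, rfl⟩
      have := le_max_left m 0
      linarith
    · have := le_max_right m 0
      push Not at hc
      linarith
  -- representatives
  let R : Set Γ := Set.range (fun x : Γ ⧸ (zsmulAddGroupHom (α := Γ) 2).range => x.out)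
  have hRfin : R.Finite := Set.finite_range _
  obtain ⟨M, hM⟩ := (hRfin.image (fun c => β c c)).bddAbove
  have hM' : ∀ r ∈ R, β r r ≤ M := fun r hr => hM ⟨r, hr, rfl⟩
  obtain ⟨K, hK⟩ : ∃ K : ℝ, K = (2 * M + m + 17 * C) / 4 := ⟨_, rfl⟩
  have hstep : ∀ x : Γ, ∃ r ∈ R, ∃ y : Γ, x = r + (y + y) ∧ β y y ≤ β x x / 2 + K := by
    intro x
    let r : Γ := (QuotientAddGroup.mk x : Γ ⧸ (zsmulAddGroupHom (α := Γ) 2).range).out
    have hr : r ∈ R := ⟨_, rfl⟩
    have hq : (QuotientAddGroup.mk r : Γ ⧸ (zsmulAddGroupHom (α := Γ) 2).range)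
        = QuotientAddGroup.mk x := Quotient.out_eq' _
    rw [QuotientAddGroup.eq] at hq
    obtain ⟨y, hy⟩ := hq
    have hy' : y + y = -r + x := by
      rw [← hy]; simp [two_zsmul]
    refine ⟨r, hr, y, ?_, ?_⟩
    · rw [hy']; abel
    · have e1 : y + y = x - r := by rw [hy']; abel
      have h1 := desc_two hsymm hadd y
      have h2 := desc_par hsymm hadd x r
      rw [e1] at h1
      have h3 := hm (x + r)
      have h4 := hM' r hr
      rw [abs_le] at h1 h2
      rw [hK]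
      linarith [h1.1, h1.2, h2.1, h2.2]
  -- the generating set
  let T : Set Γ := {c | β c c ≤ 2 * K + 1} ∪ R
  have hT : T.Finite := (hN _).union hRfin
  have key : AddSubgroup.closure T = ⊤ := by
    by_contra hne
    obtain ⟨x, hx⟩ : ∃ x : Γ, x ∉ AddSubgroup.closure T := by
      by_contra hcon
      push Not at hcon
      exact hne (eq_top_iff.mpr fun x _ => hcon x)
    let U : Set Γ := {c | β c c ≤ β x x ∧ c ∉ AddSubgroup.closure T}
    have hU : U.Finite := (hN (β x x)).subset fun c hc => hc.1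
    have hUne : U.Nonempty := ⟨x, le_refl _, hx⟩
    obtain ⟨x0, hx0U, hx0min⟩ := Set.exists_min_image U (fun c => β c c) hU hUne
    obtain ⟨r, hr, y, hxy, hy⟩ := hstep x0
    have hx0big : 2 * K + 1 < β x0 x0 := by
      by_contra hcon
      push Not at hcon
      exact hx0U.2 (AddSubgroup.subset_closure (Or.inl hcon))
    have hylt : β y y < β x0 x0 := by linarith
    have hyT : y ∉ AddSubgroup.closure T := by
      intro hyT
      apply hx0U.2
      rw [hxy]
      exact add_mem (AddSubgroup.subset_closure (Or.inr hr)) (add_mem hyT hyT)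
    have hyU : y ∈ U := ⟨le_trans hylt.le hx0U.1, hyT⟩
    have := hx0min y hyU
    linarith
  exact ⟨⟨hT.toFinset, by rw [Set.Finite.coe_toFinset]; exact key⟩⟩

end Fermat.Agent.S17
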