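/-
S17 / interface of block WMW (owner helper8): weak Mordell-Weil, Γ/2Γ finite.
-/
import Fermat.Statements.S17
import Fermat.Agent.S17.WMW.Main

set_option autoImplicit false
open ModularCurve AlgebraicCurve
open ModularCurve ModularCurve.JZero

namespace Fermat.Agent.S17

/-- the Mordell-Weil group `J_0(N)(ℚ)` -/
abbrev Gam (N : ℕ) [NeZero N] : Type :=
  ↥(FixedPoints.addSubgroup ((AlgebraicClosure ℚ) ≃ₐ[ℚ] (AlgebraicClosure ℚ)) (JZero N))

theorem wmw (N : ℕ) [NeZero N] (hN : N.Prime) (hN5 : 5 ≤ N) :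
    Finite (Gam N ⧸ (zsmulAddGroupHom (α := Gam N) 2).range) :=
  WMW.wmw_main N

end Fermat.Agent.S17
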