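/-
S17 / interface of block GLOB (owner helper17): the quasi-bilinear height pairing with Northcott.
-/
import Fermat.Agent.S17.IfWMW
import Fermat.Agent.S17.Glob.Main
import Fermat.Agent.S17.Glob.AV
import Fermat.Agent.S17.Inst.Main
import Fermat.Agent.S17.Rat.Inst

set_option autoImplicit false
open ModularCurve AlgebraicCurve
open ModularCurve ModularCurve.JZero

namespace Fermat.Agent.S17

theorem ht (N : ℕ) [NeZero N] (hN : N.Prime) (hN5 : 5 ≤ N) :
    ∃ (β : Gam N → Gam N → ℝ) (C : ℝ), (∀ a b, β a b = β b a) ∧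
      (∀ a b c, |β (a + b) c - β a c - β b c| ≤ C) ∧
      ∀ B : ℝ, {c : Gam N | β c c ≤ B}.Finite := by
  obtain ⟨𝒜⟩ := Glob.nonempty_avFam
  have h := Fermat.Agent.S37.isFF_FN N
  obtain ⟨E, -, hE⟩ := (Rat.rsN N).exists_PE h (Rat.ooN N) (Rat.smul_ooN N)
  obtain ⟨D⟩ := Inst.nonempty_htData h 𝒜 (Rat.rsN N) (fun σ c => rfl) E hE
    (FixedPoints.addSubgroup ((AlgebraicClosure ℚ) ≃ₐ[ℚ] (AlgebraicClosure ℚ)) (JZero N))
    (fun c hc σ => (Rat.mem_Gam_iff N c).mp hc σ)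
  exact Glob.main D

end Fermat.Agent.S17
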